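import Fermat.Agent.S55.E1.SpecAlg
import Fermat.Agent.S55.H783.Shift

/-!
# S55 engine E1, block ALG, leaf ALG1 (helper304)

For a finite group `G` and a finite `G`-module `N`, with the standard presentation
`0 → R → P → N → 0`, `P = ℤ[G]^{(N)}`:

* `freeIsoFunRep` : `Rep.free k G α ≅ funRep k G (α →₀ k)` for finite `G` (free = coinduced);
* `isZero_groupCohomology_free` : `Hⁿ⁺¹(G, k[G]^{(α)}) = 0`;
* `alg1 : ALG1Spec` : `R` is a finitely generated free `ℤ`-module and the connecting map
  `δ : H¹(G, N) → H²(G, R)` is bijective.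
-/

set_option autoImplicit false

open CategoryTheory CategoryTheory.Limits

namespace Fermat.Agent.S55.E1.H304

open Fermat.Agent.S55.E1

noncomputable section

section FreeIso

variable (k G α : Type) [CommRing k] [Group G] [Fintype G]

/-- `α →₀ k[G] ≃ (G → (α →₀ k))`, `F ↦ (x ↦ (a ↦ coefficient of `x⁻¹` in `F a`))`. -/
def freeLEquiv : (α →₀ MonoidAlgebra k G) ≃ₗ[k] (G → (α →₀ k)) :=
  (Finsupp.mapRange.linearEquiv (MonoidAlgebra.coeffLinearEquiv k)) ≪≫ₗ
  (Finsupp.curryLinearEquiv k).symm ≪≫ₗ
  (Finsupp.domLCongr (Equiv.prodComm α G)) ≪≫ₗ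
  (Finsupp.curryLinearEquiv k) ≪≫ₗ
  (Finsupp.linearEquivFunOnFinite k (α →₀ k) G) ≪≫ₗ
  (LinearEquiv.funCongrLeft k (α →₀ k) (Equiv.inv G))

lemma freeLEquiv_apply (F : α →₀ MonoidAlgebra k G) (x : G) (a : α) :
    freeLEquiv k G α F x a = (F a).coeff x⁻¹ := by
  simp [freeLEquiv, LinearMap.funLeft]

omit [Fintype G] in
lemma free_apply_apply (g : G) (F : α →₀ MonoidAlgebra k G) (a : α) :
    (Representation.free k G α g F) a = Representation.leftRegular k G g (F a) := by
  classical
  induction F using Finsupp.induction_linear with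
  | zero => simp
  | add f₁ f₂ h₁ h₂ => simp only [map_add, Finsupp.add_apply, h₁, h₂]
  | single b m =>
    rw [Representation.finsupp_single]
    by_cases h : b = a
    · subst h
      simp
    · simp [h]

lemma freeLEquiv_equivariant (g : G) (F : α →₀ MonoidAlgebra k G) :
    freeLEquiv k G α (Representation.free k G α g F)
      = Fermat.Agent.S55.H783.funRho k G (α →₀ k) g (freeLEquiv k G α F) := by
  funext x
  ext a
  rw [freeLEquiv_apply, Fermat.Agent.S55.H783.funRho_apply, freeLEquiv_apply, free_apply_apply,
    Representation.coeff_ofMulAction, smul_eq_mul, mul_inv_rev]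

/-- For a finite group the free representation `k[G]^{(α)}` is coinduced. -/
def freeIsoFunRep : Rep.free k G α ≅ Fermat.Agent.S55.H783.funRep k G (α →₀ k) :=
  Rep.mkIso
    { toLinearEquiv := freeLEquiv k G α
      isIntertwining' := fun g => by
        apply LinearMap.ext
        intro F
        exact freeLEquiv_equivariant k G α g F }

/-- `Hⁿ⁺¹(G, k[G]^{(α)}) = 0` for a finite group `G`. -/
theorem isZero_groupCohomology_free (n : ℕ) :
    IsZero (groupCohomology (Rep.free k G α) (n + 1)) :=
  (Fermat.Agent.S55.H783.isZero_funRep (k := k) (G := G) (α →₀ k) n).of_iso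
    ((groupCohomology.functor k G (n + 1)).mapIso (freeIsoFunRep k G α))

end FreeIso

section Alg1

/-- A subrepresentation of a finitely generated free module over a PID is finitely generated
free (stated for a generic ring so that the only module structure in sight is `hV2`). -/
lemma free_finite_of_injective {k G : Type} [CommRing k] [IsDomain k] [IsPrincipalIdealRing k]
    [Group G] {A B : Rep.{0} k G} (f : A ⟶ B) (hf : Function.Injective f.hom)
    (hfree : Module.Free k B.V) (hfin : Module.Finite k B.V) :
    Module.Free k A.V ∧ Module.Finite k A.V := by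
  let b := Module.Free.chooseBasis k B.V
  obtain ⟨n, ⟨bR⟩⟩ := Submodule.nonempty_basis_of_pid b (LinearMap.range f.hom.toLinearMap)
  let e := LinearEquiv.ofInjective f.hom.toLinearMap hf
  let bR' := bR.map e.symm
  exact ⟨Module.Free.of_basis bR', Module.Finite.of_basis bR'⟩

lemma free_finite_stdP (k G α : Type) [CommRing k] [Group G] [Finite G] [Finite α] :
    Module.Free k (Rep.free k G α).V ∧ Module.Finite k (Rep.free k G α).V := by
  constructor
  · change Module.Free k (α →₀ MonoidAlgebra k G)
    infer_instance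
  · change Module.Finite k (α →₀ MonoidAlgebra k G)
    infer_instance

variable {G : Type} [Group G]

lemma stdι_injective (N : Rep.{0} ℤ G) : Function.Injective (stdι N).hom :=
  (Rep.mono_iff_injective _).1 (stdι_mono N)

/-- **ALG1.** -/
theorem alg1 : ALG1Spec := by
  intro G _ _ N hN
  classical
  let _ : Fintype G := Fintype.ofFinite G
  have : Finite N.V := hN
  obtain ⟨hPfree, hPfin⟩ := free_finite_stdP ℤ G N.V
  obtain ⟨h1, h2⟩ := free_finite_of_injective (stdι N) (stdι_injective N) hPfree hPfin
  refine ⟨h1, h2, ?_⟩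
  have h := groupCohomology.isIso_δ_of_isZero (stdSC_shortExact N) 1
    (isZero_groupCohomology_free ℤ G N.V 0) (isZero_groupCohomology_free ℤ G N.V 1)
  exact (ConcreteCategory.isIso_iff_bijective _).mp h

end Alg1

end

end Fermat.Agent.S55.E1.H304
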