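import Fermat.Agent.S55.E1.SpecAlg

/-!
# S55 engine E1, block ALG, leaf ALG2 (helper304)

If `p N = 0` then `p • f` extends to `P = ℤ[G]^{(N)}` for every `f : R ⟶ X`:
multiplication by `p` maps `P` into `R = ker ε`, and `x ↦ f (p x)` is the extension.
-/

set_option autoImplicit false

open CategoryTheory CategoryTheory.Limits

namespace Fermat.Agent.S55.E1.H304

open Fermat.Agent.S55.E1

noncomputable section

variable {G : Type} [Group G]

/-- Pointwise extensionality for morphisms of representations. -/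
lemma repHom_ext304 {A B : Rep.{0} ℤ G} {f g : A ⟶ B} (h : ∀ x : A.V, f.hom x = g.hom x) :
    f = g := by
  apply Rep.hom_ext
  apply DFunLike.ext
  exact h

/-- `p • 𝟙 P` composed with `ε` vanishes when `p N = 0`. -/
lemma nsmul_id_comp_stdε (p : ℕ) (N : Rep.{0} ℤ G) (hpN : ∀ n : N.V, p • n = 0) :
    (p • 𝟙 (stdP N)) ≫ stdε N = 0 := by
  rw [Preadditive.nsmul_comp, Category.id_comp]
  apply repHom_ext304
  intro x
  change p • (stdε N).hom x = 0
  exact hpN _

/-- Multiplication by `p` as a morphism `P ⟶ R`. -/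
def mulP (p : ℕ) (N : Rep.{0} ℤ G) (hpN : ∀ n : N.V, p • n = 0) : stdP N ⟶ stdR N :=
  kernel.lift (stdε N) (p • 𝟙 (stdP N)) (nsmul_id_comp_stdε p N hpN)

lemma mulP_comp_stdι (p : ℕ) (N : Rep.{0} ℤ G) (hpN : ∀ n : N.V, p • n = 0) :
    mulP p N hpN ≫ stdι N = p • 𝟙 (stdP N) :=
  kernel.lift_ι _ _ _

lemma stdι_comp_mulP (p : ℕ) (N : Rep.{0} ℤ G) (hpN : ∀ n : N.V, p • n = 0) :
    stdι N ≫ mulP p N hpN = p • 𝟙 (stdR N) := by
  have := stdι_mono N
  rw [← cancel_mono (stdι N), Category.assoc, mulP_comp_stdι, Preadditive.comp_nsmul,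
    Preadditive.nsmul_comp, Category.comp_id, Category.id_comp]

/-- **ALG2.** -/
theorem alg2 : ALG2Spec := by
  intro p G _ N X hpN f
  refine ⟨mulP p N hpN ≫ f, ?_⟩
  rw [← Category.assoc, stdι_comp_mulP, Preadditive.nsmul_comp, Category.id_comp]

end

end Fermat.Agent.S55.E1.H304
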