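import Fermat.Agent.S55.E1.H304.Alg1
import Fermat.Agent.S55.H295.Basic

/-!
# S55 engine E1, block ALG, leaf ALG1 for subgroups (helper304)

Blueprint `coord/S55-E1.md` §7.1: the standard presentation `0 → R → P → N → 0` of a finite
`G`-module restricted along an injective `φ : D →* G`.

* `isZero_groupCohomology_res_free` : `Hⁿ⁺¹(D, P|_D) = 0`;
* `resFreeIso` : `Res_S (k[G]^{(α)}) ≅ k[S]^{(G ⧸ S × α)}` for a subgroup `S` of a finite group;
* `stdSC_res_shortExact`, `alg1_res` : `δ_D : H¹(D, N|_D) → H²(D, R|_D)` is bijective and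
  `R|_D` is a lattice.
-/

set_option autoImplicit false

open CategoryTheory CategoryTheory.Limits

namespace Fermat.Agent.S55.E1.H304

open Fermat.Agent.S55.E1

noncomputable section

section ResFree

variable (k G α : Type) [CommRing k] [Group G] [Fintype G]

/-- `Hⁿ⁺¹(S, Res_S k[G]^{(α)}) = 0` for a subgroup `S` of a finite group `G`. -/
theorem isZero_groupCohomology_resSub_free (S : Subgroup G) (n : ℕ) :
    IsZero (groupCohomology (Rep.res S.subtype (Rep.free k G α)) (n + 1)) :=
  (Fermat.Agent.S55.H783.isZero_res_funRep (k := k) (G := G) S (α →₀ k) n).of_iso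
    ((groupCohomology.functor k S (n + 1)).mapIso
      ((Rep.resFunctor S.subtype).mapIso (freeIsoFunRep k G α)))

/-- `Hⁿ⁺¹(D, Res_φ k[G]^{(α)}) = 0` for an injective `φ : D →* G` into a finite group. -/
theorem isZero_groupCohomology_res_free {D : Type} [Group D] (φ : D →* G)
    (hφ : Function.Injective φ) (n : ℕ) :
    IsZero (groupCohomology (Rep.res φ (Rep.free k G α)) (n + 1)) :=
  Fermat.Agent.S55.H295.isZero_res_of_range φ hφ _ _
    (isZero_groupCohomology_resSub_free k G α φ.range n)

/-- `funRep` is functorial in linear equivalences of the coefficient module. -/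
def funRepCongr {V W : Type} [AddCommGroup V] [Module k V] [AddCommGroup W] [Module k W]
    (e : V ≃ₗ[k] W) :
    Fermat.Agent.S55.H783.funRep k G V ≅ Fermat.Agent.S55.H783.funRep k G W :=
  Rep.mkIso
    { toLinearEquiv := LinearEquiv.piCongrRight (fun _ : G => e)
      isIntertwining' := fun g => by
        apply LinearMap.ext
        intro f
        funext x
        rfl }

/-- `(Q → (α →₀ k)) ≃ (Q × α →₀ k)` for a finite type `Q`. -/
def funFinsuppLEquiv (Q : Type) [Finite Q] : (Q → (α →₀ k)) ≃ₗ[k] ((Q × α) →₀ k) :=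
  (Finsupp.linearEquivFunOnFinite k (α →₀ k) Q).symm ≪≫ₗ (Finsupp.curryLinearEquiv k).symm

/-- **Restriction of a free representation is free**: for a subgroup `S` of a finite group `G`,
`Res_S (k[G]^{(α)}) ≅ k[S]^{(G ⧸ S × α)}`. -/
def resFreeIso (S : Subgroup G) [Fintype S] :
    Rep.res S.subtype (Rep.free k G α) ≅ Rep.free k S ((G ⧸ S) × α) :=
  (Rep.resFunctor S.subtype).mapIso (freeIsoFunRep k G α) ≪≫
    Fermat.Agent.S55.H783.resFunRepIso S (α →₀ k) ≪≫
    funRepCongr k S (funFinsuppLEquiv k α (G ⧸ S)) ≪≫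
    (freeIsoFunRep k S ((G ⧸ S) × α)).symm

end ResFree

section Alg1Res

variable {G : Type} [Group G]

/-- The standard presentation restricted along `φ` is short exact. -/
theorem stdSC_res_shortExact (N : Rep.{0} ℤ G) {D : Type} [Group D] (φ : D →* G) :
    ((stdSC N).map (Rep.resFunctor φ)).ShortExact :=
  (Rep.shortExact_res φ).2 (stdSC_shortExact N)

/-- **ALG1 for subgroups**: for finite `G`, finite `N` and injective `φ : D →* G`, the
connecting map `δ_D : H¹(D, N|_D) → H²(D, R|_D)` of the restricted standard presentation is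
bijective. -/
theorem alg1_res_bijective [Finite G] (N : Rep.{0} ℤ G) {D : Type} [Group D] (φ : D →* G)
    (hφ : Function.Injective φ) :
    Function.Bijective (groupCohomology.δ (stdSC_res_shortExact N φ) 1 2 rfl).hom := by
  classical
  let _ : Fintype G := Fintype.ofFinite G
  have h := groupCohomology.isIso_δ_of_isZero (stdSC_res_shortExact N φ) 1
    (isZero_groupCohomology_res_free ℤ G N.V φ hφ 0)
    (isZero_groupCohomology_res_free ℤ G N.V φ hφ 1)
  exact (ConcreteCategory.isIso_iff_bijective _).mp h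

/-- **ALG1 for subgroups**, lattice part: `R|_D` is finitely generated free over `ℤ`. -/
theorem alg1_res_lattice [Finite G] (N : Rep.{0} ℤ G) (hN : Finite N.V) {D : Type} [Group D]
    (φ : D →* G) :
    @Module.Free ℤ (Rep.res φ (stdR N)).V _ _ (Rep.res φ (stdR N)).hV2 ∧
      @Module.Finite ℤ (Rep.res φ (stdR N)).V _ _ (Rep.res φ (stdR N)).hV2 :=
  ⟨(alg1 G N hN).1, (alg1 G N hN).2.1⟩

end Alg1Res

end

end Fermat.Agent.S55.E1.H304
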