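/-
S55 engine E1, block ALG — leaf ALG6 (helper304): `theorem alg6 : ALG6Spec`
(Shapiro and the restricted presentation), exact frozen statement of `E1/SpecAlg2.lean`.

(a) `δ_D` bijective: `H304.alg1_res_bijective` (restriction of a free module to a subgroup is
    coinduced from `1`); naturality of `δ` under restriction: `H783.δ_naturality_map`.
(b) `flat φ = (Rep.resCoindHomEquiv φ R X).symm` (Frobenius reciprocity).
(c) both sides are `map φ (flat φ f) 2 (δ x)`.
-/
import Fermat.Agent.S55.E1.SpecAlg2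
import Fermat.Agent.S55.E1.H304.Alg1Res
import Fermat.Agent.S55.H783.Natural

set_option autoImplicit false

open CategoryTheory CategoryTheory.Limits groupCohomology

namespace Fermat.Agent.S55.E1.H304

noncomputable section Alg6

variable {G D : Type} [Group G] [Group D]

/-- ALG6 (a1): the connecting map of the restricted standard presentation is bijective. -/
theorem resδ_bijective [Finite G] (φ : D →* G) (hφ : Function.Injective φ) (N : Rep.{0} ℤ G) :
    Function.Bijective (resδ φ N) :=
  alg1_res_bijective N φ hφ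

/-- ALG6 (a2), categorical form: `δ ≫ res_φ = res_φ ≫ δ_D`. -/
theorem stdδ_comp_res (φ : D →* G) (N : Rep.{0} ℤ G) :
    groupCohomology.δ (stdSC_shortExact N) 1 2 rfl ≫
        groupCohomology.map φ (𝟙 (Rep.res φ (stdR N))) 2 =
      groupCohomology.map φ (𝟙 (Rep.res φ N)) 1 ≫
        groupCohomology.δ (resSC_shortExact φ N) 1 2 rfl :=
  Fermat.Agent.S55.H783.δ_naturality_map φ (stdSC_shortExact N) (resSC_shortExact φ N)
    (𝟙 (resSC φ N)) 1 2 rfl

/-- ALG6 (a2): `res_φ (δ x) = δ_D (res_φ x)`. -/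
theorem resAlong_stdδ (φ : D →* G) (N : Rep.{0} ℤ G) (x : groupCohomology N 1) :
    resAlong φ (stdR N) 2 (stdδ N x) = resδ φ N (resAlong φ N 1 x) :=
  congrArg (fun m => m.hom x) (stdδ_comp_res φ N)

/-- `flat` is the inverse of Mathlib's Frobenius reciprocity equivalence. -/
theorem flat_eq_symm (φ : D →* G) {R : Rep.{0} ℤ G} {X : Rep.{0} ℤ D}
    (f : R ⟶ Rep.coind φ X) : flat φ f = (Rep.resCoindHomEquiv φ R X).symm f := by
  apply Rep.hom_ext
  apply DFunLike.ext
  intro x
  rfl

/-- ALG6 (b): `f ↦ f^♭` is bijective. -/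
theorem flat_bijective (φ : D →* G) (R : Rep.{0} ℤ G) (X : Rep.{0} ℤ D) :
    Function.Bijective (fun f : R ⟶ Rep.coind φ X => flat φ f) := by
  have h : (fun f : R ⟶ Rep.coind φ X => flat φ f) =
      fun f => (Rep.resCoindHomEquiv φ R X).symm f := funext fun f => flat_eq_symm φ f
  rw [h]
  exact (Rep.resCoindHomEquiv φ R X).symm.bijective

/-- Restriction followed by a coefficient map is the mixed functoriality map. -/
theorem res_comp_coeff (φ : D →* G) {A : Rep.{0} ℤ G} {X : Rep.{0} ℤ D}
    (g : Rep.res φ A ⟶ X) (n : ℕ) :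
    groupCohomology.map φ (𝟙 (Rep.res φ A)) n ≫ groupCohomology.map (MonoidHom.id D) g n =
      groupCohomology.map φ g n := by
  have h := groupCohomology.map_comp (k := ℤ) φ (MonoidHom.id D) (𝟙 (Rep.res φ A)) g n
  rw [← h]
  congr 1

/-- A coefficient map followed by a mixed map is the mixed map of the composite. -/
theorem coeff_comp_map (φ : D →* G) {A B : Rep.{0} ℤ G} {X : Rep.{0} ℤ D}
    (f : A ⟶ B) (g : Rep.res φ B ⟶ X) (n : ℕ) :
    groupCohomology.map (MonoidHom.id G) f n ≫ groupCohomology.map φ g n =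
      groupCohomology.map φ ((Rep.resFunctor φ).map f ≫ g) n := by
  have h := groupCohomology.map_comp (k := ℤ) (MonoidHom.id G) φ f g n
  exact h.symm

/-- ALG6 (c): `sh ⟨f, x⟩ = ⟨f^♭, res_φ x⟩_D`. -/
theorem sh2_pair (φ : D →* G) {N : Rep.{0} ℤ G} {X : Rep.{0} ℤ D}
    (f : homA N (Rep.coind φ X)) (x : groupCohomology N 1) :
    sh2 φ X (pair f x) = pairLoc φ (flat φ f) (resAlong φ N 1 x) := by
  have h1 : sh2 φ X (pair f x) =
      (groupCohomology.map φ (flat φ f) 2).hom (stdδ N x) := by
    have := coeff_comp_map φ f (Fermat.Agent.S55.H173.ev1Hom φ X) 2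
    exact congrArg (fun m => m.hom (stdδ N x)) this
  have h2 : pairLoc φ (flat φ f) (resAlong φ N 1 x) =
      (groupCohomology.map φ (flat φ f) 2).hom (stdδ N x) := by
    unfold pairLoc
    rw [← resAlong_stdδ]
    have := res_comp_coeff φ (flat φ f) 2
    exact congrArg (fun m => m.hom (stdδ N x)) this
  rw [h1, h2]

/-- **ALG6** (Shapiro and the restricted presentation). -/
theorem alg6 : ALG6Spec := by
  intro G D _ _ _ φ hφ N
  refine ⟨resδ_bijective φ hφ N, resAlong_stdδ φ N, fun X => ⟨flat_bijective φ (stdR N) X, ?_⟩⟩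
  intro f x
  exact sh2_pair φ f x

end Alg6

end Fermat.Agent.S55.E1.H304
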