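/-
S55 engine E1, block ALG — leaf ALG10∂ (helper304): the transition maps `tr` commute with the
boundary map `∂` of ALG3 (helper354, `E1/H354/Alg3.lean`).

Generic form (`tr_bdry`): `π : G' →* G`, `a : R' ⟶ res_π R` (both `k`-projective), short exact
sequences `S` over `G`, `S'` over `G'`, a morphism `Φ : res_π S ⟶ S'`.  Then
  `H¹(π, φ ↦ Φ₁ ∘ φ ∘ a) (∂ f'') = ∂' (a ≫ res_π f'' ≫ Φ₃)`.
Special cases: naturality of `∂` in the short exact sequence (`π = id`, `a = 𝟙`), restriction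
to a subgroup, the transition maps of the tower (`stdBdry_tr`, `alg10Bdry`).
-/
import Fermat.Agent.S55.E1.H354.Alg3
import Fermat.Agent.S55.E1.Tr.Defs

set_option autoImplicit false

open CategoryTheory CategoryTheory.Limits groupCohomology

namespace Fermat.Agent.S55.E1.H304

open Fermat.Agent.S55.E1.H354

noncomputable section Alg10Bdry

section generic

variable {k G G' : Type} [CommRing k] [Group G] [Group G'] (π : G' →* G)
variable {R : Rep.{0} k G} {R' : Rep.{0} k G'} (a : R' ⟶ Rep.res π R)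
variable {S : ShortComplex (Rep.{0} k G)} {S' : ShortComplex (Rep.{0} k G')}
variable (Φ : S.map (Rep.resFunctor π) ⟶ S')

/-- `Φ₂ ∘ S.f = S'.f ∘ Φ₁`, elementwise. -/
theorem comm₁₂_apply (x : S.X₁.V) : S'.f.hom (Φ.τ₁.hom x) = Φ.τ₂.hom (S.f.hom x) :=
  congrArg (fun m => m.hom x) Φ.comm₁₂

/-- `Φ₃ ∘ S.g = S'.g ∘ Φ₂`, elementwise. -/
theorem comm₂₃_apply (x : S.X₂.V) : S'.g.hom (Φ.τ₂.hom x) = Φ.τ₃.hom (S.g.hom x) :=
  congrArg (fun m => m.hom x) Φ.comm₂₃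

/-- The image under `tr` of a boundary cocycle of `f''` is a boundary cocycle of `tr f''`. -/
theorem isBdryCocycle_tr {f'' : R ⟶ S.X₃} {c : cocycles₁ ((Rep.ihom R).obj S.X₁)}
    (hc : IsBdryCocycle R S f'' c) :
    IsBdryCocycle R' S' (a ≫ (Rep.resFunctor π).map f'' ≫ Φ.τ₃)
      (mapCocycles₁ π (trIhom π a Φ.τ₁) c) := by
  obtain ⟨φ, hφ, hcφ⟩ := hc
  refine ⟨Φ.τ₂.hom.toLinearMap ∘ₗ φ ∘ₗ a.hom.toLinearMap, fun r => ?_, fun g r => ?_⟩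
  · show S'.g.hom (Φ.τ₂.hom (φ (a.hom r))) = Φ.τ₃.hom (f''.hom (a.hom r))
    rw [comm₂₃_apply π Φ, hφ]
  · have h1 : a.hom (R'.ρ g⁻¹ r) = R.ρ (π g)⁻¹ (a.hom r) := by
      have := Rep.hom_comm_apply a g⁻¹ r
      rw [this]
      show R.ρ (π g⁻¹) (a.hom r) = _
      rw [map_inv]
    have h2 : ∀ x : S.X₂.V, Φ.τ₂.hom (S.X₂.ρ (π g) x) = S'.X₂.ρ g (Φ.τ₂.hom x) := fun x =>
      Rep.hom_comm_apply Φ.τ₂ g x
    have h3 : ∀ x y : S.X₂.V, Φ.τ₂.hom (x - y) = Φ.τ₂.hom x - Φ.τ₂.hom y := fun x y =>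
      map_sub Φ.τ₂.hom x y
    have h4 : S'.f.hom (Φ.τ₁.hom (ihomLin (c (π g)) (a.hom r))) =
        Φ.τ₂.hom (S.f.hom (ihomLin (c (π g)) (a.hom r))) := comm₁₂_apply π Φ _
    have h5 : Φ.τ₂.hom (S.f.hom (ihomLin (c (π g)) (a.hom r))) =
        Φ.τ₂.hom (S.X₂.ρ (π g) (φ (R.ρ (π g)⁻¹ (a.hom r))) - φ (a.hom r)) :=
      congrArg (fun x : S.X₂.V => Φ.τ₂.hom x) (hcφ (π g) (a.hom r))
    have h6 : S'.X₂.ρ g (Φ.τ₂.hom (φ (a.hom (R'.ρ g⁻¹ r)))) =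
        S'.X₂.ρ g (Φ.τ₂.hom (φ (R.ρ (π g)⁻¹ (a.hom r)))) :=
      congrArg (fun x : R.V => S'.X₂.ρ g (Φ.τ₂.hom (φ x))) h1
    show S'.f.hom (Φ.τ₁.hom (ihomLin (c (π g)) (a.hom r))) =
      S'.X₂.ρ g (Φ.τ₂.hom (φ (a.hom (R'.ρ g⁻¹ r)))) - Φ.τ₂.hom (φ (a.hom r))
    exact h4.trans (h5.trans ((h3 _ _).trans (by rw [h2, h6])))

/-- **ALG10∂, generic form**: `tr (∂ f'') = ∂' (tr f'')`. -/
theorem tr_bdry (hS : S.ShortExact) (hS' : S'.ShortExact) [Module.Projective k R.V]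
    [Module.Projective k R'.V] (f'' : R ⟶ S.X₃) :
    (groupCohomology.map π (trIhom π a Φ.τ₁) 1).hom (bdry hS R f'') =
      bdry hS' R' (a ≫ (Rep.resFunctor π).map f'' ≫ Φ.τ₃) := by
  obtain ⟨c, hc⟩ := exists_isBdryCocycle hS f''
  rw [bdry_eq hS hc, bdry_eq hS' (isBdryCocycle_tr π a Φ hc)]
  exact H1π_comp_map_apply π (trIhom π a Φ.τ₁) c

end generic

section std

variable {G G' : Type} [Group G] [Group G'] (π : G' →* G)
variable {N : Rep.{0} ℤ G} {N' : Rep.{0} ℤ G'} (ν : N' ⟶ Rep.res π N)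
variable {S : ShortComplex (Rep.{0} ℤ G)} {S' : ShortComplex (Rep.{0} ℤ G')}
variable (Φ : S.map (Rep.resFunctor π) ⟶ S')

/-- **ALG10∂ for the standard presentations**: `tr ∘ ∂ = ∂' ∘ tr`. -/
theorem stdBdry_tr (hR : @Module.Projective ℤ _ (stdR N).V _ (stdR N).hV2)
    (hR' : @Module.Projective ℤ _ (stdR N').V _ (stdR N').hV2)
    (hS : S.ShortExact) (hS' : S'.ShortExact) (f'' : homA N S.X₃) :
    trE2 π ν Φ.τ₁ (stdBdry N hR hS f'') = stdBdry N' hR' hS' (trA π ν Φ.τ₃ f'') :=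
  haveI := hR
  haveI := hR'
  tr_bdry π (trR π ν) Φ hS hS' f''

/-- ALG10∂ for ANY boundary maps `d`, `d'` given by the explicit cocycle formula (e.g. the
ones provided by `H354.ALG3Spec`). -/
theorem bdry_tr_of_formula (hR : @Module.Projective ℤ _ (stdR N).V _ (stdR N).hV2)
    (hS : S.ShortExact)
    (d : homA N S.X₃ →+ E2 N S.X₁)
    (hd : ∀ (f'' : homA N S.X₃) (c : cocycles₁ ((Rep.ihom (stdR N)).obj S.X₁)),
      IsBdryCocycle (stdR N) S f'' c → d f'' = H1π _ c)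
    (d' : homA N' S'.X₃ →+ E2 N' S'.X₁)
    (hd' : ∀ (f'' : homA N' S'.X₃) (c : cocycles₁ ((Rep.ihom (stdR N')).obj S'.X₁)),
      IsBdryCocycle (stdR N') S' f'' c → d' f'' = H1π _ c)
    (f'' : homA N S.X₃) :
    trE2 π ν Φ.τ₁ (d f'') = d' (trA π ν Φ.τ₃ f'') := by
  obtain ⟨c, hc⟩ := exists_isBdryCocycle_std N hR hS f''
  rw [hd f'' c hc]
  have h := hd' (trA π ν Φ.τ₃ f'') _ (isBdryCocycle_tr π (trR π ν) Φ hc)
  rw [h]
  exact H1π_comp_map_apply π (trIhom π (trR π ν) Φ.τ₁) c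

end std

/-- **ALG10∂** (Spec form): for a change of group `π : G' →* G`, `ν : N' ⟶ res_π N`, short
exact sequences `S`, `S'` and `Φ : res_π S ⟶ S'`:  `tr (∂ f'') = ∂' (tr f'')`. -/
def ALG10BdrySpec : Prop :=
  ∀ (G G' : Type) [Group G] [Group G'] (π : G' →* G)
    (N : Rep.{0} ℤ G) (N' : Rep.{0} ℤ G') (ν : N' ⟶ Rep.res π N)
    (hR : @Module.Projective ℤ _ (stdR N).V _ (stdR N).hV2)
    (hR' : @Module.Projective ℤ _ (stdR N').V _ (stdR N').hV2)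
    (S : ShortComplex (Rep.{0} ℤ G)) (S' : ShortComplex (Rep.{0} ℤ G'))
    (hS : S.ShortExact) (hS' : S'.ShortExact) (Φ : S.map (Rep.resFunctor π) ⟶ S')
    (f'' : homA N S.X₃),
    trE2 π ν Φ.τ₁ (stdBdry N hR hS f'') = stdBdry N' hR' hS' (trA π ν Φ.τ₃ f'')

theorem alg10Bdry : ALG10BdrySpec :=
  fun _ _ _ _ π _ _ ν hR hR' _ _ hS hS' Φ f'' => stdBdry_tr π ν Φ hR hR' hS hS' f''

end Alg10Bdry

end Fermat.Agent.S55.E1.H304
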